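import Mathlib
import Fermat.Agent.FF3.DVCompl.Datum

/-!
# PROGRAMME I, node EXPPACK-COMP (helper21): a `DVCompl.Datum` from a valuation subring of a bigger
field which is discrete on a subfield

`O` a valuation subring of a field `F`, `F₀ ≤ F` a subfield, `w ∈ F₀` a nonzero nonunit of `O` such
that every nonunit of `O` lying in `F₀` is divisible by `w` in `O` (`e(O | F₀) = 1` with
uniformiser `w`), and `O` is separated for the powers of `w` on `F₀` (e.g. `O` has rank one).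
Then `(F₀, O ∩ F₀, w)` is an input datum of helper16's DV-completion package:
`datumOfSubfield`, `datumOfSubfield_of_arch`.  Mathlib + `FF3/DVCompl/Datum.lean` only.
-/

set_option autoImplicit false

namespace Fermat.Agent.FF3.ExpPackComp

open Fermat.Agent.FF3.DVCompl

variable {F : Type*} [Field F] (O : ValuationSubring F) (F₀ : Subfield F)

/-- the trace `O ∩ F₀` of a valuation subring on a subfield -/
def traceSubring : ValuationSubring F₀ := O.comap F₀.subtype

theorem mem_traceSubring_iff (x : F₀) : x ∈ traceSubring O F₀ ↔ (x : F) ∈ O := Iff.rfl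

variable {O F₀}

/-- an element of `O ∩ F₀` which is not a unit of `O ∩ F₀` is a nonunit of `O` -/
theorem coe_mem_nonunits_of_not_isUnit {x : traceSubring O F₀} (hx : ¬ IsUnit x) :
    (((x : F₀)) : F) ∈ O.nonunits := by
  by_contra h
  apply hx
  have hx0 : (x : F₀) ≠ 0 := by
    intro h0
    apply h
    rw [h0]
    exact (O.mem_nonunits_iff).2 (by rw [ZeroMemClass.coe_zero, map_zero]; exact zero_lt_one)
  have hxO : ((x : F₀) : F) ∈ O := x.2
  -- the inverse lies in `O`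
  have hinv : (((x : F₀)⁻¹ : F₀) : F) ∈ O := by
    rw [Subfield.coe_inv]
    by_contra hni
    apply h
    have hv : O.valuation ((x : F₀) : F) ≤ 1 := (O.valuation_le_one_iff _).2 hxO
    have hv' : ¬ O.valuation (((x : F₀) : F))⁻¹ ≤ 1 := fun h1 => hni ((O.valuation_le_one_iff _).1 h1)
    rw [O.mem_nonunits_iff]
    rw [map_inv₀, not_le] at hv'
    have hne : O.valuation ((x : F₀) : F) ≠ 0 :=
      (Valuation.ne_zero_iff _).2 (fun h0 => hx0 (Subtype.ext h0))
    rcases lt_or_eq_of_le hv with hlt | heq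
    · exact hlt
    · rw [heq, inv_one] at hv'
      exact absurd hv' (lt_irrefl _)
  exact IsUnit.of_mul_eq_one (⟨(x : F₀)⁻¹, hinv⟩ : traceSubring O F₀)
    (Subtype.ext (mul_inv_cancel₀ hx0))

/-- **The datum `(F₀, O ∩ F₀, w)`**, separation given in element form. -/
def datumOfSubfield (O : ValuationSubring F) (F₀ : Subfield F) (w : F₀) (hw0 : w ≠ 0)
    (hwO : (w : F) ∈ O)
    (hdiv : ∀ x : F₀, (x : F) ∈ O.nonunits → (x : F) / (w : F) ∈ O)
    (hsep : ∀ x : F₀, (∀ n : ℕ, (x : F) / (w : F) ^ n ∈ O) → x = 0) : Datum F₀ where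
  O₀ := traceSubring O F₀
  w := w
  w_mem := hwO
  w_ne_zero := hw0
  dvd_of_not_isUnit := by
    intro x hx
    have h1 := hdiv (x : F₀) (coe_mem_nonunits_of_not_isUnit hx)
    refine ⟨⟨(x : F₀) / w, ?_⟩, ?_⟩
    · show (((x : F₀) / w : F₀) : F) ∈ O
      rw [Subfield.coe_div]
      exact h1
    · apply Subtype.ext
      show (x : F₀) = w * ((x : F₀) / w)
      rw [mul_div_cancel₀ _ hw0]
  eq_zero_of_forall_dvd := by
    intro x hx
    apply Subtype.ext
    apply hsep (x : F₀)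
    intro n
    obtain ⟨y, hy⟩ := hx n
    have hwF : (w : F) ≠ 0 := fun h => hw0 (Subtype.ext h)
    have h1 : ((x : F₀) : F) = (w : F) ^ n * ((y : F₀) : F) := by
      have := congrArg (fun z : traceSubring O F₀ => (((z : F₀)) : F)) hy
      simpa using this
    rw [h1, mul_div_assoc, mul_comm, div_mul_cancel₀ _ (pow_ne_zero n hwF)]
    exact y.2

@[simp] theorem datumOfSubfield_O₀ (O : ValuationSubring F) (F₀ : Subfield F) (w : F₀) (hw0 : w ≠ 0)
    (hwO : (w : F) ∈ O) (hdiv) (hsep) :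
    (datumOfSubfield O F₀ w hw0 hwO hdiv hsep).O₀ = traceSubring O F₀ := rfl

@[simp] theorem datumOfSubfield_w (O : ValuationSubring F) (F₀ : Subfield F) (w : F₀) (hw0 : w ≠ 0)
    (hwO : (w : F) ∈ O) (hdiv) (hsep) :
    (datumOfSubfield O F₀ w hw0 hwO hdiv hsep).w = w := rfl

theorem mem_datumOfSubfield_O₀_iff (O : ValuationSubring F) (F₀ : Subfield F) (w : F₀)
    (hw0 : w ≠ 0) (hwO : (w : F) ∈ O) (hdiv) (hsep) (x : F₀) :
    x ∈ (datumOfSubfield O F₀ w hw0 hwO hdiv hsep).O₀ ↔ (x : F) ∈ O := Iff.rfl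

/-- separation from the rank one property (element form, = main's `BR.TwoVal.Arch`) -/
theorem sep_of_arch (harch : ∀ x : F, ∀ u ∈ O.nonunits, u ≠ 0 → ∃ n : ℕ, x * u ^ n ∈ O)
    {w : F} (hw0 : w ≠ 0) (hw : w ∈ O.nonunits) {x : F}
    (hx : ∀ n : ℕ, x / w ^ n ∈ O) : x = 0 := by
  by_contra hx0
  obtain ⟨n, hn⟩ := harch x⁻¹ w hw hw0
  have h1 := O.mul_mem _ _ hn (hx (n + 1))
  have h2 : x⁻¹ * w ^ n * (x / w ^ (n + 1)) = w⁻¹ := by
    rw [pow_succ]
    field_simp
  rw [h2] at h1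
  -- `w⁻¹ ∈ O` contradicts `w` nonunit
  have h3 : O.valuation w < 1 := (O.mem_nonunits_iff).1 hw
  have h4 : O.valuation w⁻¹ ≤ 1 := (O.valuation_le_one_iff _).2 h1
  rw [map_inv₀] at h4
  have h5 : O.valuation w ≠ 0 := (Valuation.ne_zero_iff _).2 hw0
  have h6 : 1 ≤ O.valuation w := (inv_le_one₀ (zero_lt_iff.2 h5)).1 h4
  exact absurd h3 (not_lt.2 h6)

/-- **The datum `(F₀, O ∩ F₀, w)`** for a rank one `O`. -/
def datumOfSubfield_of_arch (O : ValuationSubring F) (F₀ : Subfield F) (w : F₀) (hw0 : w ≠ 0)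
    (hw : (w : F) ∈ O.nonunits)
    (harch : ∀ x : F, ∀ u ∈ O.nonunits, u ≠ 0 → ∃ n : ℕ, x * u ^ n ∈ O)
    (hdiv : ∀ x : F₀, (x : F) ∈ O.nonunits → (x : F) / (w : F) ∈ O) : Datum F₀ :=
  datumOfSubfield O F₀ w hw0
    ((O.valuation_le_one_iff _).1 ((O.mem_nonunits_iff).1 hw).le) hdiv
    (fun _ hx => Subtype.ext (sep_of_arch harch (fun h => hw0 (Subtype.ext h)) hw hx))

end Fermat.Agent.FF3.ExpPackComp
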