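import Mathlib
import Fermat.Agent.FF3.DVCompl.API

/-!
# PROGRAMME I, node T4 (component side, helper21): transport of the DV-completion of a subfield
along an automorphism of the ambient field — abstract form

`F₀ ≤ F` a subfield, `D : DVCompl.Datum F₀` whose valuation ring is the trace of a valuation ring
`O` of `F` (`hO : ∀ x : F₀, x ∈ D.O₀ ↔ (x : F) ∈ O`), `g : F ≃+* F` an automorphism stabilising
`F₀` and `O`.  Then `g` induces

* `restrictEquiv F₀ g hgF : F₀ ≃+* F₀` and `restrictO D O hO g hgF hgO : D.O₀ ≃+* D.O₀`;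
* `autL … : D.Lh ≃+* D.Lh` (helper16's `Datum.mapEquiv`), `autL_emb`, `autL_mem_Oh_iff`;
* `autO … : D.Oh ≃+* D.Oh` with `coe_autO`, `autO_embO`, uniqueness `eq_autO`, `autO_symm`,
  `isUnit_autO_iff`, `autO_mem_maximalIdeal_iff`;
* `resh_autO` : compatibility with the residue maps (`res (g x) = τ (res x)` on `O₀`; `τ = id` for
  an inertia element: `resh_autO_of_trivial`);
* `liftOf_autO`, `lift_autO` : for `φ : D.O₀ →+* B`, `B` complete, and `σB : B →+* B` with
  `σB (φ x) = φ (g x)` on `O₀`: `σB (D.lift φ hB y) = D.lift φ hB (autO y)` — the squares `hb1`,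
  `hb2` of `Glue.NodeHom` when `b1`, `b2` are `DVCompl.lift`s.
-/

set_option autoImplicit false

namespace Fermat.Agent.FF3.ExpPackComp

open Fermat.Agent.FF3.DVCompl

section Restrict

variable {F : Type*} [Field F]

/-- The restriction of an automorphism to a stable subfield. -/
def restrictEquiv (F₀ : Subfield F) (g : F ≃+* F) (hgF : ∀ y, g y ∈ F₀ ↔ y ∈ F₀) : F₀ ≃+* F₀ where
  toFun x := ⟨g x, (hgF x).2 x.2⟩
  invFun x := ⟨g.symm x, (hgF (g.symm x)).1 (by rw [g.apply_symm_apply]; exact x.2)⟩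
  left_inv x := Subtype.ext (g.symm_apply_apply x)
  right_inv x := Subtype.ext (g.apply_symm_apply x)
  map_mul' x y := Subtype.ext (map_mul g (x : F) (y : F))
  map_add' x y := Subtype.ext (map_add g (x : F) (y : F))

@[simp] theorem coe_restrictEquiv (F₀ : Subfield F) (g : F ≃+* F)
    (hgF : ∀ y, g y ∈ F₀ ↔ y ∈ F₀) (x : F₀) : (restrictEquiv F₀ g hgF x : F) = g x := rfl

@[simp] theorem coe_restrictEquiv_symm (F₀ : Subfield F) (g : F ≃+* F)
    (hgF : ∀ y, g y ∈ F₀ ↔ y ∈ F₀) (x : F₀) :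
    ((restrictEquiv F₀ g hgF).symm x : F) = g.symm x := rfl

theorem symm_mem_iff {s : Set F} (g : F ≃+* F) (h : ∀ y, g y ∈ s ↔ y ∈ s) (y : F) :
    g.symm y ∈ s ↔ y ∈ s := by
  rw [← h, g.apply_symm_apply]

theorem restrictEquiv_symm (F₀ : Subfield F) (g : F ≃+* F) (hgF : ∀ y, g y ∈ F₀ ↔ y ∈ F₀) :
    (restrictEquiv F₀ g hgF).symm =
      restrictEquiv F₀ g.symm (symm_mem_iff (s := (F₀ : Set F)) g hgF) := rfl

end Restrict

section Aut

variable {F : Type*} [Field F] {F₀ : Subfield F} (D : Datum F₀) (O : ValuationSubring F)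
  (hO : ∀ x : F₀, x ∈ D.O₀ ↔ (x : F) ∈ O) (g : F ≃+* F) (hgF : ∀ y, g y ∈ F₀ ↔ y ∈ F₀)
  (hgO : ∀ y, g y ∈ O ↔ y ∈ O)

include hO hgO in
theorem mem_O₀_restrictEquiv_iff (x : F₀) : x ∈ D.O₀ ↔ restrictEquiv F₀ g hgF x ∈ D.O₀ := by
  rw [hO, hO, coe_restrictEquiv, hgO]

/-- The restriction of `g` to the valuation ring `O₀ = O ∩ F₀`. -/
def restrictO : D.O₀ ≃+* D.O₀ where
  toFun x := ⟨restrictEquiv F₀ g hgF x, (mem_O₀_restrictEquiv_iff D O hO g hgF hgO x).1 x.2⟩
  invFun x := ⟨(restrictEquiv F₀ g hgF).symm x,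
    (mem_O₀_restrictEquiv_iff D O hO g hgF hgO _).2 (by
      rw [RingEquiv.apply_symm_apply]; exact x.2)⟩
  left_inv x := Subtype.ext ((restrictEquiv F₀ g hgF).symm_apply_apply x)
  right_inv x := Subtype.ext ((restrictEquiv F₀ g hgF).apply_symm_apply x)
  map_mul' x y := Subtype.ext (map_mul (restrictEquiv F₀ g hgF) (x : F₀) (y : F₀))
  map_add' x y := Subtype.ext (map_add (restrictEquiv F₀ g hgF) (x : F₀) (y : F₀))

@[simp] theorem coe_restrictO (x : D.O₀) :
    ((restrictO D O hO g hgF hgO x : F₀) : F) = g ((x : F₀) : F) := rfl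

theorem coe_restrictO' (x : D.O₀) :
    (restrictO D O hO g hgF hgO x : F₀) = restrictEquiv F₀ g hgF x := rfl

/-- **The automorphism of the completed field** induced by `g`. -/
noncomputable def autL : D.Lh ≃+* D.Lh :=
  Datum.mapEquiv (restrictEquiv F₀ g hgF) (mem_O₀_restrictEquiv_iff D O hO g hgF hgO)

theorem autL_emb (x : F₀) :
    autL D O hO g hgF hgO (D.emb x) = D.emb (restrictEquiv F₀ g hgF x) :=
  Datum.mapEquiv_emb _ _ x

theorem autL_mem_Oh_iff (y : D.Lh) : autL D O hO g hgF hgO y ∈ D.Oh ↔ y ∈ D.Oh :=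
  Datum.mapEquiv_mem_Oh_iff _ _ y

theorem autL_symm_mem_Oh_iff (y : D.Lh) : (autL D O hO g hgF hgO).symm y ∈ D.Oh ↔ y ∈ D.Oh := by
  rw [← autL_mem_Oh_iff D O hO g hgF hgO, RingEquiv.apply_symm_apply]

/-- **The automorphism of the completed valuation ring** induced by `g`. -/
noncomputable def autO : D.Oh ≃+* D.Oh where
  toFun y := ⟨autL D O hO g hgF hgO y, (autL_mem_Oh_iff D O hO g hgF hgO y).2 y.2⟩
  invFun y := ⟨(autL D O hO g hgF hgO).symm y, (autL_symm_mem_Oh_iff D O hO g hgF hgO y).2 y.2⟩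
  left_inv y := Subtype.ext ((autL D O hO g hgF hgO).symm_apply_apply y)
  right_inv y := Subtype.ext ((autL D O hO g hgF hgO).apply_symm_apply y)
  map_mul' x y := Subtype.ext (map_mul (autL D O hO g hgF hgO) (x : D.Lh) (y : D.Lh))
  map_add' x y := Subtype.ext (map_add (autL D O hO g hgF hgO) (x : D.Lh) (y : D.Lh))

@[simp] theorem coe_autO (y : D.Oh) :
    ((autO D O hO g hgF hgO y : D.Oh) : D.Lh) = autL D O hO g hgF hgO y := rfl

@[simp] theorem coe_autO_symm (y : D.Oh) :
    (((autO D O hO g hgF hgO).symm y : D.Oh) : D.Lh) = (autL D O hO g hgF hgO).symm y := rfl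

theorem autO_embO (x : D.O₀) :
    autO D O hO g hgF hgO (D.embO x) = D.embO (restrictO D O hO g hgF hgO x) := by
  apply Subtype.ext
  rw [coe_autO, D.coe_embO, D.coe_embO, autL_emb]
  rfl

theorem autO_symm_embO (x : D.O₀) :
    (autO D O hO g hgF hgO).symm (D.embO x) = D.embO ((restrictO D O hO g hgF hgO).symm x) := by
  rw [RingEquiv.symm_apply_eq, autO_embO, RingEquiv.apply_symm_apply]

/-- `g` maps the uniformiser to a non-unit of `O₀`. -/
theorem not_isUnit_restrictO_w₀ : ¬ IsUnit (restrictO D O hO g hgF hgO D.w₀) := fun h =>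
  D.not_isUnit_w₀ (by
    have := h.map (restrictO D O hO g hgF hgO).symm
    rwa [RingEquiv.symm_apply_apply] at this)

theorem w₀_dvd_restrictO_w₀ : D.w₀ ∣ restrictO D O hO g hgF hgO D.w₀ :=
  D.dvd_of_not_isUnit' (not_isUnit_restrictO_w₀ D O hO g hgF hgO)

theorem isUnit_autO_iff (y : D.Oh) : IsUnit (autO D O hO g hgF hgO y) ↔ IsUnit y :=
  MulEquiv.isUnit_map (autO D O hO g hgF hgO)

theorem autO_mem_maximalIdeal_iff (y : D.Oh) :
    autO D O hO g hgF hgO y ∈ IsLocalRing.maximalIdeal D.Oh ↔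
      y ∈ IsLocalRing.maximalIdeal D.Oh := by
  rw [IsLocalRing.mem_maximalIdeal, IsLocalRing.mem_maximalIdeal, mem_nonunits_iff,
    mem_nonunits_iff, isUnit_autO_iff]

/-- `wh` divides its image. -/
theorem wh_dvd_autO_wh : D.wh ∣ autO D O hO g hgF hgO D.wh := by
  apply D.wh_dvd_of_not_isUnit
  rw [isUnit_autO_iff]
  exact D.irreducible_wh.not_isUnit

section lift

variable {B : Type*} [CommRing B] (J : Ideal B) (φ : D.O₀ →+* B) (hJ : φ D.w₀ ∈ J)

include hJ in
theorem phi_restrictO_w₀_mem : φ (restrictO D O hO g hgF hgO D.w₀) ∈ J := by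
  obtain ⟨c, hc⟩ := w₀_dvd_restrictO_w₀ D O hO g hgF hgO
  rw [hc, map_mul]
  exact Ideal.mul_mem_right _ _ hJ

/-- **Equivariance of the universal lifts** (general form): if `σB (φ x) = φ (g x)` on `O₀` then
`σB ∘ liftOf φ = liftOf φ ∘ autO`. -/
theorem liftOf_autO (hB : IsAdicComplete J B) (σB : B →+* B)
    (hσ : ∀ x : D.O₀, σB (φ x) = φ (restrictO D O hO g hgF hgO x)) (y : D.Oh) :
    σB (D.liftOf J φ hJ hB y) = D.liftOf J φ hJ hB (autO D O hO g hgF hgO y) := by
  have key : σB.comp (D.liftOf J φ hJ hB) =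
      (D.liftOf J φ hJ hB).comp (autO D O hO g hgF hgO : D.Oh →+* D.Oh) := by
    refine D.ringHom_ext_of_embO J hB (fun x => ?_) ?_
    · show σB (D.liftOf J φ hJ hB (D.embO x)) =
        D.liftOf J φ hJ hB (autO D O hO g hgF hgO (D.embO x))
      rw [D.liftOf_embO, autO_embO, D.liftOf_embO, hσ]
    · show σB (D.liftOf J φ hJ hB D.wh) ∈ J
      rw [D.liftOf_wh, hσ]
      exact phi_restrictO_w₀_mem D O hO g hgF hgO J φ hJ
  exact RingHom.congr_fun key y

/-- **Equivariance of the universal lifts**: the squares `hb1`, `hb2` of `Glue.NodeHom`. -/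
theorem lift_autO (hB : IsAdicComplete (Ideal.span {φ D.w₀}) B) (σB : B →+* B)
    (hσ : ∀ x : D.O₀, σB (φ x) = φ (restrictO D O hO g hgF hgO x)) (y : D.Oh) :
    σB (D.lift φ hB y) = D.lift φ hB (autO D O hO g hgF hgO y) :=
  liftOf_autO D O hO g hgF hgO _ φ _ hB σB hσ y

end lift

/-- **Uniqueness**: `autO` is the only ring endomorphism of `Ô` inducing `g` on `O₀`. -/
theorem eq_autO (ψ : D.Oh →+* D.Oh)
    (h : ∀ x : D.O₀, ψ (D.embO x) = D.embO (restrictO D O hO g hgF hgO x)) :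
    ψ = (autO D O hO g hgF hgO : D.Oh →+* D.Oh) := by
  refine D.ringHom_ext_of_embO (IsLocalRing.maximalIdeal D.Oh) D.isAdicComplete_maximalIdeal_Oh
    (fun x => ?_) ?_
  · rw [h]
    exact (autO_embO D O hO g hgF hgO x).symm
  · show ψ (D.embO D.w₀) ∈ _
    rw [h]
    exact D.embO_mem_maximalIdeal (not_isUnit_restrictO_w₀ D O hO g hgF hgO)

section residue

variable {k' : Type*} [CommRing k'] (res : D.O₀ →+* k') (hres : res D.w₀ = 0)

/-- **Compatibility with the residue maps.** -/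
theorem resh_autO (τ : k' →+* k')
    (hτ : ∀ x : D.O₀, res (restrictO D O hO g hgF hgO x) = τ (res x)) (y : D.Oh) :
    D.resh res hres (autO D O hO g hgF hgO y) = τ (D.resh res hres y) := by
  have h := liftOf_autO D O hO g hgF hgO (Ideal.span {res D.w₀}) res
    (Ideal.mem_span_singleton_self _) (D.isAdicComplete_span_res res hres) τ
    (fun x => (hτ x).symm) y
  exact h.symm

/-- An automorphism acting trivially on the residues of `O₀` (an inertia element) acts trivially
on the residues of `Ô`. -/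
theorem resh_autO_of_trivial (hτ : ∀ x : D.O₀, res (restrictO D O hO g hgF hgO x) = res x)
    (y : D.Oh) : D.resh res hres (autO D O hO g hgF hgO y) = D.resh res hres y :=
  resh_autO D O hO g hgF hgO res hres (RingHom.id k') hτ y

end residue

/-- The inverse of `autO` is the `autO` of the inverse. -/
theorem autO_symm :
    ((autO D O hO g hgF hgO).symm : D.Oh →+* D.Oh) =
      (autO D O hO g.symm (symm_mem_iff (s := (F₀ : Set F)) g hgF)
        (symm_mem_iff (s := (O : Set F)) g hgO) : D.Oh →+* D.Oh) := by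
  apply eq_autO
  intro x
  show (autO D O hO g hgF hgO).symm (D.embO x) = _
  rw [autO_symm_embO]
  rfl

end Aut

end Fermat.Agent.FF3.ExpPackComp
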