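import Mathlib
import Fermat.Agent.BR.Inst.ContentFK
import Fermat.Agent.BR.Inst.Levels
import Fermat.Agent.BR.TwoValInst
import Fermat.Agent.BR.S0.RedModularInst
import Fermat.Agent.FF3.ExpPackComp.Discrete

/-!
# PROGRAMME I, node EXPPACK-COMP (helper21): the DV-completion data of the two components of the
model of `X₀(qM)` at a finite level `S`

`S : Finset Kb` a level, `F₀ := FKs (M * q) (KS q S) = FS (M * q) q S` the functions rational over
the coefficient field `K₀(S)`, `ϖ_S := unif B hq hB S` its uniformiser.  For `v : Fin 2` the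
valuation ring `(compW B hB hqM v).O ∩ F₀` (`O1 ∩ F₀`, `O2 ∩ F₀`) is a discrete valuation ring with
uniformiser `ϖ_S` (main: `ContentFK.div_pi_mem_O1_sf`, `div_pi_mem_O2_sf` = `e(w_i | F_S) = 1`,
`TwoValInst.arch_O1`, `arch_O2` = rank one), i.e. an input datum `datum B hB hqM S v` of helper16's
DV-completion package.
-/

set_option autoImplicit false
set_option linter.unusedSectionVars false

noncomputable section

namespace Fermat.Agent.FF3.ExpPackComp

open ModularCurve AlgebraicCurve Fermat.Agent.X0 Fermat.Agent.Val Fermat.Agent.BR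
  Fermat.Agent.BR.TwoVal Fermat.Agent.BR.TwoValInst Fermat.Agent.BR.Inst.Levels
  Fermat.Agent.BR.Inst.FKCover Fermat.Agent.BR.Inst.ContentFK Fermat.Agent.BR.S0.RedModular
  Fermat.Agent.FF3.DVCompl

variable {M q : ℕ} [NeZero M] [hq : Fact q.Prime]
variable (B : ValuationSubring Kb) (hB : B.LiesOverPrime q) (hqM : ¬ q ∣ M) (S : Finset Kb)

/-- the two descriptions of the level function field agree -/
theorem FS_eq_FKs (N : ℕ) [NeZero N] (q : ℕ) (S : Finset Kb) : FS N q S = FKs N (KS q S) := rfl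

/-- the uniformiser of the level `S` as a function of the level -/
def unifF : FKs (M * q) (KS q S) :=
  ⟨algebraMap Kb (Fb (M * q)) (unif B hq.out hB S),
    Subfield.subset_closure (Or.inl ⟨_, unif_mem_KS B hq.out hB S, rfl⟩)⟩

@[simp] theorem coe_unifF :
    ((unifF B hB S : FKs (M * q) (KS q S)) : Fb (M * q)) =
      algebraMap Kb (Fb (M * q)) (unif B hq.out hB S) := rfl

theorem unifF_ne_zero : unifF (M := M) B hB S ≠ 0 := by
  intro h
  have h1 : algebraMap Kb (Fb (M * q)) (unif B hq.out hB S) = 0 := congrArg Subtype.val h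
  exact unif_ne_zero B hq.out hB S ((map_eq_zero _).1 h1)

theorem unifF_mem_nonunits_O1 :
    ((unifF B hB S : FKs (M * q) (KS q S)) : Fb (M * q)) ∈ (O1 M B hB).nonunits :=
  (Separate.algebraMap_mem_nonunits_O1_iff B hB _).2
    (B.mem_nonunits_iff.2 (unif_lt_one B hq.out hB S))

theorem unifF_mem_nonunits_O2 :
    ((unifF B hB S : FKs (M * q) (KS q S)) : Fb (M * q)) ∈ (O2 B hB hqM).nonunits :=
  (Separate.algebraMap_mem_nonunits_O2_iff hqM B hB _).2
    (B.mem_nonunits_iff.2 (unif_lt_one B hq.out hB S))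

/-- `e(w₁ | F_S) = 1` -/
theorem div_unifF_mem_O1 (x : FKs (M * q) (KS q S))
    (hx : (x : Fb (M * q)) ∈ (O1 M B hB).nonunits) :
    (x : Fb (M * q)) / ((unifF B hB S : FKs (M * q) (KS q S)) : Fb (M * q)) ∈ O1 M B hB :=
  div_pi_mem_O1_sf B hB (KS q S) (unif B hq.out hB S) (unif_ne_zero B hq.out hB S)
    (unif_lt_one B hq.out hB S) (fun _ hc hc0 => valuation_eq_zpow_unif B hq.out hB S hc hc0)
    x.2 hx

/-- `e(w₂ | F_S) = 1` -/
theorem div_unifF_mem_O2 (x : FKs (M * q) (KS q S))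
    (hx : (x : Fb (M * q)) ∈ (O2 B hB hqM).nonunits) :
    (x : Fb (M * q)) / ((unifF B hB S : FKs (M * q) (KS q S)) : Fb (M * q)) ∈ O2 B hB hqM :=
  div_pi_mem_O2_sf B hB hqM (KS q S) (unif B hq.out hB S) (unif_ne_zero B hq.out hB S)
    (unif_lt_one B hq.out hB S) (fun _ hc hc0 => valuation_eq_zpow_unif B hq.out hB S hc hc0)
    x.2 hx

/-- **the datum of the component `∞`**: `(F_S, O1 ∩ F_S, ϖ_S)` -/
def datumO1 : Datum (FKs (M * q) (KS q S)) :=
  datumOfSubfield_of_arch (O1 M B hB) (FKs (M * q) (KS q S)) (unifF B hB S)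
    (unifF_ne_zero B hB S) (unifF_mem_nonunits_O1 B hB S) (arch_O1 B hB)
    (div_unifF_mem_O1 B hB S)

/-- **the datum of the component `0`**: `(F_S, O2 ∩ F_S, ϖ_S)` -/
def datumO2 : Datum (FKs (M * q) (KS q S)) :=
  datumOfSubfield_of_arch (O2 B hB hqM) (FKs (M * q) (KS q S)) (unifF B hB S)
    (unifF_ne_zero B hB S) (unifF_mem_nonunits_O2 B hB hqM S) (arch_O2 B hB hqM)
    (div_unifF_mem_O2 B hB hqM S)

/-- **the datum of the component `v`** of the two-component model -/
def datum (v : Fin 2) : Datum (FKs (M * q) (KS q S)) :=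
  Fin.cases (datumO1 B hB S) (fun _ => datumO2 B hB hqM S) v

@[simp] theorem datum_zero : datum B hB hqM S 0 = datumO1 B hB S := rfl

@[simp] theorem datum_one : datum B hB hqM S 1 = datumO2 B hB hqM S := rfl

/-- the valuation ring of the datum is `O_v ∩ F_S` -/
theorem mem_datum_O₀_iff (v : Fin 2) (x : FKs (M * q) (KS q S)) :
    x ∈ (datum B hB hqM S v).O₀ ↔ (x : Fb (M * q)) ∈ (compW B hB hqM v).O := by
  refine Fin.cases ?_ (fun i => ?_) v
  · exact Iff.rfl
  · have hi : i = 0 := Subsingleton.elim _ _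
    subst hi
    exact Iff.rfl

/-- the uniformiser of the datum is `ϖ_S` -/
theorem datum_w (v : Fin 2) : (datum B hB hqM S v).w = unifF B hB S := by
  refine Fin.cases ?_ (fun i => ?_) v
  · rfl
  · have hi : i = 0 := Subsingleton.elim _ _
    subst hi
    rfl

theorem mem_datumO1_O₀_iff (x : FKs (M * q) (KS q S)) :
    x ∈ (datumO1 B hB S).O₀ ↔ (x : Fb (M * q)) ∈ O1 M B hB := Iff.rfl

theorem mem_datumO2_O₀_iff (x : FKs (M * q) (KS q S)) :
    x ∈ (datumO2 B hB hqM S).O₀ ↔ (x : Fb (M * q)) ∈ O2 B hB hqM := Iff.rfl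

end Fermat.Agent.FF3.ExpPackComp
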