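import Mathlib
import Fermat.Agent.BR.S0.TwoCompInput
import Fermat.Agent.FF3.B4.CompInst
import Fermat.Agent.FF3.ExpPackComp.Modular

/-!
# PROGRAMME I, node EXPPACK-COMP (helper21): the component part of the expansion package of the
two-component model of `X₀(qM)` at a finite level

`compPack B hB hqM I hC S : B4.CompPack I.toSetup (FKs (M * q) (KS q S)) (unifF B hB S)` for every
two-component input `I` whose components are main's `compW B hB hqM` (`hC : I.C = compW B hB hqM`,
as in `G5ModularFinal` / contract D-A) and every level `S : Finset Kb`: helper22's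
`CompPack.ofDatum` applied to the data `ExpPackComp.datum B hB hqM S v`.
-/

set_option autoImplicit false
set_option linter.unusedSectionVars false

noncomputable section

namespace Fermat.Agent.FF3.ExpPackComp

open ModularCurve AlgebraicCurve IsLocalRing Fermat.Agent.X0 Fermat.Agent.Val Fermat.Agent.BR
  Fermat.Agent.BR.TwoVal Fermat.Agent.BR.TwoValInst Fermat.Agent.BR.Inst.Levels
  Fermat.Agent.BR.Inst.FKCover Fermat.Agent.BR.S0 Fermat.Agent.BR.S0.RedModular
  Fermat.Agent.FF3.DVCompl Fermat.Agent.FF3.B4

variable {M q : ℕ} [NeZero M] [hq : Fact q.Prime]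
variable (B : ValuationSubring Kb) (hB : B.LiesOverPrime q) (hqM : ¬ q ∣ M)
  {ν : Type*}
  (I : TwoCompInput (F := Fb (M * q)) B (residue B)
    (modularFunctionFieldFullC (ResidueField B) M) ν)
  (hC : I.C = compW B hB hqM) (S : Finset Kb)

include hC in
theorem mem_datum_O₀_iff_setup (v : Fin 2) (x : FKs (M * q) (KS q S)) :
    x ∈ (datum B hB hqM S v).O₀ ↔ (x : Fb (M * q)) ∈ I.toSetup.O v := by
  rw [mem_datum_O₀_iff]
  show _ ↔ (x : Fb (M * q)) ∈ (I.C v).O
  rw [hC]

/-- **THE COMPONENT PART of the expansion package at the level `S`.** -/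
def compPack : CompPack I.toSetup (FKs (M * q) (KS q S)) (unifF B hB S) :=
  CompPack.ofDatum I.toSetup (datum B hB hqM S)
    (fun v x => mem_datum_O₀_iff_setup B hB hqM I hC S v x) (fun v => datum_w B hB hqM S v)

@[simp] theorem compPack_Lh (v : Fin 2) :
    (compPack B hB hqM I hC S).Lh v = (datum B hB hqM S v).Lh := rfl

@[simp] theorem compPack_Oh (v : Fin 2) :
    (compPack B hB hqM I hC S).Oh v = (datum B hB hqM S v).Oh := rfl

@[simp] theorem compPack_emb (v : Fin 2) :
    (compPack B hB hqM I hC S).emb v = (datum B hB hqM S v).emb := rfl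

end Fermat.Agent.FF3.ExpPackComp
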