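import Mathlib
import Fermat.Agent.FF3.ExpPackComp.GalAbs
import Fermat.Agent.FF3.ExpPackComp.Pack
import Fermat.Agent.FF3.InertiaLevels.Basic

/-!
# PROGRAMME I, node T4 (component side, helper21): the inertia group acts on the completions of
the two components at a Galois-stable level

`σ ∈ B.inertiaSubgroupIn ℚ`, `S` a level stable under `σ` (helper29's
`InertiaLevels.GalStable q σ S`), `g := gal (M * q) σ`.  Then `g` stabilises
`F_S = FKs (M * q) (KS q S)` and the two valuation rings `(compW B hB hqM v).O` (helper29,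
`FF3/InertiaLevels/Basic`), hence induces (file `GalAbs`)

* `galL B hB hqM S hσ hS v : (datum B hB hqM S v).Lh ≃+* (datum B hB hqM S v).Lh`, `galL_emb`,
  `galL_mem_Oh_iff`;
* `galO B hB hqM S hσ hS v : (datum B hB hqM S v).Oh ≃+* (datum B hB hqM S v).Oh` (= the maps
  `σOi` (`v = 0`), `σOz` (`v = 1`) of `Glue.FrameHom`), `coe_galO`, `galO_embO`, `eq_galO`
  (uniqueness), `isUnit_galO_iff`;
* `lift_galO` : the squares `hb1`, `hb2` of `Glue.NodeHom` for `b_i := DVCompl.lift φ`;
* `compPack_resh_galO` : `g` acts trivially on the residues of the component part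
  `compPack B hB hqM I hC S` of the expansion package;
* `compPack_galO_pow_eq` : transport of root families:
  `y ^ n = emb f ⟹ (galO y) ^ n = emb (g • f)`.
-/

set_option autoImplicit false
set_option linter.unusedSectionVars false
set_option synthInstance.maxHeartbeats 400000

noncomputable section

namespace Fermat.Agent.FF3.ExpPackComp

open ModularCurve AlgebraicCurve IsLocalRing Fermat.Agent.X0 Fermat.Agent.Val Fermat.Agent.BR
  Fermat.Agent.BR.TwoVal Fermat.Agent.BR.TwoValInst Fermat.Agent.BR.Inst.Levels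
  Fermat.Agent.BR.Inst.FKCover Fermat.Agent.BR.S0 Fermat.Agent.BR.S0.RedModular
  Fermat.Agent.BR.ValTwo Fermat.Agent.FF3.DVCompl Fermat.Agent.FF3.B4
  Fermat.Agent.FF3.InertiaLevels

variable {M q : ℕ} [NeZero M] [hq : Fact q.Prime]
variable (B : ValuationSubring Kb) (hB : B.LiesOverPrime q) (hqM : ¬ q ∣ M) (S : Finset Kb)
variable {σ : Kb ≃ₐ[ℚ] Kb}

/-- `gal N σ` as a ring automorphism of `Fb N`. -/
abbrev galRing (N : ℕ) [NeZero N] (σ : Kb ≃ₐ[ℚ] Kb) : Fb N ≃+* Fb N :=
  SemilinearAut.toRingAut (gal N σ)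

theorem galRing_apply (N : ℕ) [NeZero N] (σ : Kb ≃ₐ[ℚ] Kb) (y : Fb N) :
    galRing N σ y = gal N σ • y := rfl

theorem galRing_mem_FKs_iff (N : ℕ) [NeZero N] {S : Finset Kb} (hS : GalStable q σ S)
    (y : Fb N) : galRing N σ y ∈ FKs N (KS q S) ↔ y ∈ FKs N (KS q S) :=
  gal_smul_mem_FS_iff N hS y

theorem galRing_mem_compW_iff (hσ : σ ∈ B.inertiaSubgroupIn ℚ) (v : Fin 2) (y : Fb (M * q)) :
    galRing (M * q) σ y ∈ (compW B hB hqM v).O ↔ y ∈ (compW B hB hqM v).O := by
  refine Fin.cases ?_ (fun i => ?_) v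
  · exact gal_smul_mem_compW_zero_iff B hB hqM hσ y
  · have hi : i = 0 := Subsingleton.elim _ _
    subst hi
    exact gal_smul_mem_compW_one_iff B hB hqM hσ y

variable (hσ : σ ∈ B.inertiaSubgroupIn ℚ) (hS : GalStable q σ S)

/-- **the action of `σ` on the completed field of the component `v` at the level `S`** -/
def galL (v : Fin 2) : (datum B hB hqM S v).Lh ≃+* (datum B hB hqM S v).Lh :=
  autL (datum B hB hqM S v) (compW B hB hqM v).O (mem_datum_O₀_iff B hB hqM S v)
    (galRing (M * q) σ) (galRing_mem_FKs_iff (M * q) hS) (galRing_mem_compW_iff B hB hqM hσ v)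

/-- **the action of `σ` on the completed valuation ring of the component `v` at the level `S`**
(`σOi` for `v = 0`, `σOz` for `v = 1`) -/
def galO (v : Fin 2) : (datum B hB hqM S v).Oh ≃+* (datum B hB hqM S v).Oh :=
  autO (datum B hB hqM S v) (compW B hB hqM v).O (mem_datum_O₀_iff B hB hqM S v)
    (galRing (M * q) σ) (galRing_mem_FKs_iff (M * q) hS) (galRing_mem_compW_iff B hB hqM hσ v)

/-- the action of `σ` on the level function field -/
def galF : FKs (M * q) (KS q S) ≃+* FKs (M * q) (KS q S) :=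
  restrictEquiv (FKs (M * q) (KS q S)) (galRing (M * q) σ) (galRing_mem_FKs_iff (M * q) hS)

/-- the action of `σ` on the level field, as a ring homomorphism (`g` of `StepB.InertiaPack`) -/
def galFHom : FKs (M * q) (KS q S) →+* FKs (M * q) (KS q S) :=
  (galF (M := M) S hS : FKs (M * q) (KS q S) ≃+* FKs (M * q) (KS q S))

omit hσ in
@[simp] theorem coe_galFHom (h : FKs (M * q) (KS q S)) :
    ((galFHom (M := M) S hS h : FKs (M * q) (KS q S)) : Fb (M * q)) =
      gal (M * q) σ • (h : Fb (M * q)) := rfl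

/-- the action of `σ` on `O_v ∩ F_S` -/
def galO₀ (v : Fin 2) : (datum B hB hqM S v).O₀ ≃+* (datum B hB hqM S v).O₀ :=
  restrictO (datum B hB hqM S v) (compW B hB hqM v).O (mem_datum_O₀_iff B hB hqM S v)
    (galRing (M * q) σ) (galRing_mem_FKs_iff (M * q) hS) (galRing_mem_compW_iff B hB hqM hσ v)

omit hσ in
@[simp] theorem coe_galF (x : FKs (M * q) (KS q S)) :
    (galF S hS x : Fb (M * q)) = gal (M * q) σ • (x : Fb (M * q)) := rfl

@[simp] theorem coe_galO₀ (v : Fin 2) (x : (datum B hB hqM S v).O₀) :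
    ((galO₀ B hB hqM S hσ hS v x : FKs (M * q) (KS q S)) : Fb (M * q)) =
      gal (M * q) σ • ((x : FKs (M * q) (KS q S)) : Fb (M * q)) := rfl

theorem coe_galO₀' (v : Fin 2) (x : (datum B hB hqM S v).O₀) :
    (galO₀ B hB hqM S hσ hS v x : FKs (M * q) (KS q S)) = galF S hS x := rfl

theorem galL_emb (v : Fin 2) (x : FKs (M * q) (KS q S)) :
    galL B hB hqM S hσ hS v ((datum B hB hqM S v).emb x) =
      (datum B hB hqM S v).emb (galF S hS x) :=
  autL_emb _ _ _ _ _ _ x

theorem galL_mem_Oh_iff (v : Fin 2) (y : (datum B hB hqM S v).Lh) :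
    galL B hB hqM S hσ hS v y ∈ (datum B hB hqM S v).Oh ↔ y ∈ (datum B hB hqM S v).Oh :=
  autL_mem_Oh_iff _ _ _ _ _ _ y

@[simp] theorem coe_galO (v : Fin 2) (y : (datum B hB hqM S v).Oh) :
    ((galO B hB hqM S hσ hS v y : (datum B hB hqM S v).Oh) : (datum B hB hqM S v).Lh) =
      galL B hB hqM S hσ hS v y := rfl

theorem galO_embO (v : Fin 2) (x : (datum B hB hqM S v).O₀) :
    galO B hB hqM S hσ hS v ((datum B hB hqM S v).embO x) =
      (datum B hB hqM S v).embO (galO₀ B hB hqM S hσ hS v x) :=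
  autO_embO _ _ _ _ _ _ x

/-- `galO` on the image of an integral rational function -/
theorem galO_mk_emb (v : Fin 2) (x : FKs (M * q) (KS q S))
    (hx : (datum B hB hqM S v).emb x ∈ (datum B hB hqM S v).Oh) :
    galO B hB hqM S hσ hS v ⟨(datum B hB hqM S v).emb x, hx⟩ =
      ⟨(datum B hB hqM S v).emb (galF S hS x),
        by rw [← galL_emb B hB hqM S hσ hS v x]; exact (galL_mem_Oh_iff B hB hqM S hσ hS v _).2 hx⟩ :=
  Subtype.ext (galL_emb B hB hqM S hσ hS v x)

/-- **uniqueness** -/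
theorem eq_galO (v : Fin 2) (ψ : (datum B hB hqM S v).Oh →+* (datum B hB hqM S v).Oh)
    (h : ∀ x : (datum B hB hqM S v).O₀, ψ ((datum B hB hqM S v).embO x) =
      (datum B hB hqM S v).embO (galO₀ B hB hqM S hσ hS v x)) :
    ψ = (galO B hB hqM S hσ hS v : (datum B hB hqM S v).Oh →+* (datum B hB hqM S v).Oh) :=
  eq_autO _ _ _ _ _ _ ψ h

theorem isUnit_galO_iff (v : Fin 2) (y : (datum B hB hqM S v).Oh) :
    IsUnit (galO B hB hqM S hσ hS v y) ↔ IsUnit y :=
  isUnit_autO_iff _ _ _ _ _ _ y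

/-- **the squares `hb1`, `hb2` of `Glue.NodeHom`** when `b1`, `b2` are `DVCompl.lift`s. -/
theorem lift_galO (v : Fin 2) {R : Type*} [CommRing R] (φ : (datum B hB hqM S v).O₀ →+* R)
    (hR : IsAdicComplete (Ideal.span {φ (datum B hB hqM S v).w₀}) R) (σR : R →+* R)
    (hφ : ∀ x : (datum B hB hqM S v).O₀, σR (φ x) = φ (galO₀ B hB hqM S hσ hS v x))
    (y : (datum B hB hqM S v).Oh) :
    σR ((datum B hB hqM S v).lift φ hR y) =
      (datum B hB hqM S v).lift φ hR (galO B hB hqM S hσ hS v y) :=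
  lift_autO _ _ _ _ _ _ φ hR σR hφ y

/-- the general form, `R` complete for an ideal `J ∋ φ ϖ` -/
theorem liftOf_galO (v : Fin 2) {R : Type*} [CommRing R] (J : Ideal R)
    (φ : (datum B hB hqM S v).O₀ →+* R) (hJ : φ (datum B hB hqM S v).w₀ ∈ J)
    (hR : IsAdicComplete J R) (σR : R →+* R)
    (hφ : ∀ x : (datum B hB hqM S v).O₀, σR (φ x) = φ (galO₀ B hB hqM S hσ hS v x))
    (y : (datum B hB hqM S v).Oh) :
    σR ((datum B hB hqM S v).liftOf J φ hJ hR y) =
      (datum B hB hqM S v).liftOf J φ hJ hR (galO B hB hqM S hσ hS v y) :=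
  liftOf_autO _ _ _ _ _ _ J φ hJ hR σR hφ y

/-- **transport of root families**: `y ^ n = emb f ⟹ (σ y) ^ n = emb (g • f)`. -/
theorem galO_pow_eq (v : Fin 2) (n : ℕ) (f : FKs (M * q) (KS q S))
    (hf : (datum B hB hqM S v).emb f ∈ (datum B hB hqM S v).Oh)
    (y : (datum B hB hqM S v).Oh) (hy : y ^ n = ⟨(datum B hB hqM S v).emb f, hf⟩) :
    (galO B hB hqM S hσ hS v y) ^ n =
      ⟨(datum B hB hqM S v).emb (galF S hS f),
        by rw [← galL_emb B hB hqM S hσ hS v f]; exact (galL_mem_Oh_iff B hB hqM S hσ hS v _).2 hf⟩ := by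
  rw [← map_pow, hy]
  exact galO_mk_emb B hB hqM S hσ hS v f hf

/-! ### the component part of the expansion package -/

section Pack

variable {ν : Type*}
  (I : TwoCompInput (F := Fb (M * q)) B (residue B)
    (modularFunctionFieldFullC (ResidueField B) M) ν)
  (hC : I.C = compW B hB hqM)

include hC in
/-- inertia acts trivially on the residues of `O_v ∩ F_S` -/
theorem resO_galO₀ (v : Fin 2) (x : (datum B hB hqM S v).O₀) :
    resO I.toSetup (datum B hB hqM S v) v (mem_datum_O₀_iff_setup B hB hqM I hC S v)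
        (galO₀ B hB hqM S hσ hS v x) =
      resO I.toSetup (datum B hB hqM S v) v (mem_datum_O₀_iff_setup B hB hqM I hC S v) x := by
  obtain ⟨C, h1, z₁, z₂, h2, h3, h4, r, h5, h6, h7, h8, h9⟩ := I
  simp only at hC
  subst hC
  have hx : ((x : FKs (M * q) (KS q S)) : Fb (M * q)) ∈ (compW B hB hqM v).O :=
    (mem_datum_O₀_iff B hB hqM S v x).1 x.2
  show (compW B hB hqM v).res ⟨gal (M * q) σ • ((x : FKs (M * q) (KS q S)) : Fb (M * q)), _⟩ =
    (compW B hB hqM v).res ⟨((x : FKs (M * q) (KS q S)) : Fb (M * q)), _⟩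
  revert x
  refine Fin.cases ?_ (fun i => ?_) v
  · intro x hx
    exact compW_res_gal_smul₀ B hB hqM hσ ⟨_, hx⟩
  · have hi : i = 0 := Subsingleton.elim _ _
    subst hi
    intro x hx
    exact compW_res_gal_smul₁ B hB hqM hσ ⟨_, hx⟩

include hC in
/-- **inertia acts trivially on the residues of the completed component rings** -/
theorem compPack_resh_galO (v : Fin 2) (y : (datum B hB hqM S v).Oh) :
    (compPack B hB hqM I hC S).resh v (galO B hB hqM S hσ hS v y) =
      (compPack B hB hqM I hC S).resh v y :=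
  resh_autO_of_trivial (datum B hB hqM S v) (compW B hB hqM v).O (mem_datum_O₀_iff B hB hqM S v)
    (galRing (M * q) σ) (galRing_mem_FKs_iff (M * q) hS) (galRing_mem_compW_iff B hB hqM hσ v)
    (resO I.toSetup (datum B hB hqM S v) v (mem_datum_O₀_iff_setup B hB hqM I hC S v))
    (resO_w₀ I.toSetup (datum B hB hqM S v) v (mem_datum_O₀_iff_setup B hB hqM I hC S v))
    (resO_galO₀ B hB hqM S hσ hS I hC v) y

/-- **transport of root families**, in terms of the package: `y ^ n = emb f ⟹ (σ y) ^ n =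
emb (g • f)`. -/
theorem compPack_galO_pow_eq (v : Fin 2) (n : ℕ) (f : FKs (M * q) (KS q S))
    (hf : (f : Fb (M * q)) ∈ I.toSetup.O v) (y : (compPack B hB hqM I hC S).Oh v)
    (hy : y ^ n = ⟨(compPack B hB hqM I hC S).emb v f,
      ((compPack B hB hqM I hC S).emb_mem_iff v f).2 hf⟩) :
    ∃ hgf : ((galF S hS f : FKs (M * q) (KS q S)) : Fb (M * q)) ∈ I.toSetup.O v,
      ((galO B hB hqM S hσ hS v y : (datum B hB hqM S v).Oh) :
          (compPack B hB hqM I hC S).Oh v) ^ n =
        (⟨(compPack B hB hqM I hC S).emb v (galF S hS f),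
          ((compPack B hB hqM I hC S).emb_mem_iff v _).2 hgf⟩ :
          (compPack B hB hqM I hC S).Oh v) := by
  have hgf : ((galF S hS f : FKs (M * q) (KS q S)) : Fb (M * q)) ∈ I.toSetup.O v := by
    rw [← mem_datum_O₀_iff_setup B hB hqM I hC S v] at hf ⊢
    exact (mem_O₀_restrictEquiv_iff (datum B hB hqM S v) (compW B hB hqM v).O
      (mem_datum_O₀_iff B hB hqM S v) (galRing (M * q) σ) (galRing_mem_FKs_iff (M * q) hS)
      (galRing_mem_compW_iff B hB hqM hσ v) f).1 hf
  exact ⟨hgf, galO_pow_eq B hB hqM S hσ hS v n f _ y hy⟩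

end Pack

end Fermat.Agent.FF3.ExpPackComp
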