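import Mathlib
import Fermat.Agent.FF3.StepB.Twist
import Fermat.Agent.FF3.B4.Parts
import Fermat.Agent.FF3.B4.CompInst
import Fermat.Agent.FF3.ExpPackComp.GalAbs

/-!
# PROGRAMME I, node T4 (component side, helper21): `StepB.TwistData` for ANY component data and
ANY semistable setup

`S₀` a semistable setup of `F`, `F₀ ≤ F` the level field, `Dd : ι → DVCompl.Datum F₀` component data
with `hO : x ∈ (Dd v).O₀ ↔ (x : F) ∈ S₀.O v`, `hw : (Dd v).w = ϖ` (the inputs of helper22's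
`CompPack.ofDatum`: helper21's `ExpPackComp.datum`, helper24's `DiscInst.compDatum`, …), and
`g : F ≃+* F` stabilising `F₀` and every `S₀.O v`.

* `sigmaG … v : C.Oh v →+* C.Oh v` for `C := CompPack.ofDatum S₀ Dd hO hw` (`= autO (Dd v) …`);
  `sigmaG_apply` (`rfl`), `sigmaG_ofRatAt` (`= σh_emb`), `resh_sigmaG` (residues fixed when `g`
  acts trivially on the reductions), `isUnit_sigmaG_iff`, `sigmaG_bijective`;
* `lift_sigmaG` / `liftOf_sigmaG` : the squares `hb1`, `hb2` for `b_i = (Dd v).lift φ`;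
* `twistDataG` : `StepB.TwistData (ExpPack.ofParts hdeg C Adm adm_smooth N DdP) i₀ i₁ τ g₀` with
  `g₀ := restrictEquiv F₀ g hgF`, from `τ : Glue.FrameHom Fr` with `τ.σOi = sigmaG … i₀`,
  `τ.σOz = sigmaG … i₁`.
-/

set_option autoImplicit false

noncomputable section

namespace Fermat.Agent.FF3.ExpPackComp

open AlgebraicCurve Fermat.Agent.Red Fermat.Agent.BR.SS Fermat.Agent.FF3.DVCompl
  Fermat.Agent.FF3.B4 Fermat.Agent.FF3

universe u₁ u₂ u₃ u₄ u₅ u₆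

variable {K : Type u₁} {F : Type u₂} {k : Type u₃} [Field K] [Field F] [Algebra K F] [Field k]
  {A : ValuationSubring K} {π : A →+* k} {ι : Type u₄} {Ft : ι → Type u₅}
  [∀ v, Field (Ft v)] [∀ v, Algebra k (Ft v)] {ν : Type u₆}
  (S₀ : SemistableSetup (F := F) A π ι Ft ν) {F₀ : Subfield F} {ϖ : F₀}
  (Dd : ι → Datum F₀) (hO : ∀ v (x : F₀), x ∈ (Dd v).O₀ ↔ (x : F) ∈ S₀.O v)
  (hw : ∀ v, (Dd v).w = ϖ)
  (g : F ≃+* F) (hgF : ∀ y, g y ∈ F₀ ↔ y ∈ F₀) (hgO : ∀ v y, g y ∈ S₀.O v ↔ y ∈ S₀.O v)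

/-- **the action of `g` on the completed valuation ring of the component `v`** (the family `σh` of
`StepB.TwistData`; `σOi`, `σOz` of `Glue.FrameHom`) -/
def sigmaG (v : ι) :
    (CompPack.ofDatum S₀ Dd hO hw).Oh v →+* (CompPack.ofDatum S₀ Dd hO hw).Oh v :=
  (autO (Dd v) (S₀.O v) (hO v) g hgF (hgO v) : (Dd v).Oh →+* (Dd v).Oh)

theorem sigmaG_apply (v : ι) (y : (Dd v).Oh) :
    sigmaG S₀ Dd hO hw g hgF hgO v y = autO (Dd v) (S₀.O v) (hO v) g hgF (hgO v) y := rfl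

theorem sigmaG_bijective (v : ι) : Function.Bijective (sigmaG S₀ Dd hO hw g hgF hgO v) :=
  (autO (Dd v) (S₀.O v) (hO v) g hgF (hgO v)).bijective

theorem isUnit_sigmaG_iff (v : ι) (y : (CompPack.ofDatum S₀ Dd hO hw).Oh v) :
    IsUnit (sigmaG S₀ Dd hO hw g hgF hgO v y) ↔ IsUnit y :=
  isUnit_autO_iff (Dd v) (S₀.O v) (hO v) g hgF (hgO v) y

/-- **`σh_emb`**: compatibility with the action on the level field. -/
theorem sigmaG_ofRatAt (v : ι) (h : F₀) (hh : (h : F) ∈ S₀.O v)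
    (hh' : ((restrictEquiv F₀ g hgF h : F₀) : F) ∈ S₀.O v) :
    sigmaG S₀ Dd hO hw g hgF hgO v ((CompPack.ofDatum S₀ Dd hO hw).ofRatAt v h hh) =
      (CompPack.ofDatum S₀ Dd hO hw).ofRatAt v (restrictEquiv F₀ g hgF h) hh' :=
  Subtype.ext (autL_emb (Dd v) (S₀.O v) (hO v) g hgF (hgO v) h)

/-- inertia-type automorphisms fix the residues of the completed component rings -/
theorem resh_sigmaG
    (htriv : ∀ v (x : S₀.O v), S₀.res v ⟨g (x : F), (hgO v x).2 x.2⟩ = S₀.res v x)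
    (v : ι) (y : (CompPack.ofDatum S₀ Dd hO hw).Oh v) :
    (CompPack.ofDatum S₀ Dd hO hw).resh v (sigmaG S₀ Dd hO hw g hgF hgO v y) =
      (CompPack.ofDatum S₀ Dd hO hw).resh v y :=
  resh_autO_of_trivial (Dd v) (S₀.O v) (hO v) g hgF (hgO v) (resO S₀ (Dd v) v (hO v))
    (resO_w₀ S₀ (Dd v) v (hO v)) (fun x => htriv v ⟨((x : F₀) : F), (hO v x).1 x.2⟩) y

/-- **the squares `hb1`, `hb2`** for `b_i = (Dd v).lift φ`. -/
theorem lift_sigmaG (v : ι) {R : Type*} [CommRing R] (φ : (Dd v).O₀ →+* R)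
    (hR : IsAdicComplete (Ideal.span {φ (Dd v).w₀}) R) (σR : R →+* R)
    (hφ : ∀ x : (Dd v).O₀, σR (φ x) = φ (restrictO (Dd v) (S₀.O v) (hO v) g hgF (hgO v) x))
    (y : (Dd v).Oh) :
    σR ((Dd v).lift φ hR y) = (Dd v).lift φ hR (sigmaG S₀ Dd hO hw g hgF hgO v y) :=
  lift_autO (Dd v) (S₀.O v) (hO v) g hgF (hgO v) φ hR σR hφ y

theorem liftOf_sigmaG (v : ι) {R : Type*} [CommRing R] (J : Ideal R) (φ : (Dd v).O₀ →+* R)
    (hJ : φ (Dd v).w₀ ∈ J) (hR : IsAdicComplete J R) (σR : R →+* R)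
    (hφ : ∀ x : (Dd v).O₀, σR (φ x) = φ (restrictO (Dd v) (S₀.O v) (hO v) g hgF (hgO v) x))
    (y : (Dd v).Oh) :
    σR ((Dd v).liftOf J φ hJ hR y) =
      (Dd v).liftOf J φ hJ hR (sigmaG S₀ Dd hO hw g hgF hgO v y) :=
  liftOf_autO (Dd v) (S₀.O v) (hO v) g hgF (hgO v) J φ hJ hR σR hφ y

/-- transport of root families -/
theorem sigmaG_pow_eq (v : ι) (n : ℕ) (f : F₀) (hf : (f : F) ∈ S₀.O v)
    (hf' : ((restrictEquiv F₀ g hgF f : F₀) : F) ∈ S₀.O v)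
    (y : (CompPack.ofDatum S₀ Dd hO hw).Oh v)
    (hy : y ^ n = (CompPack.ofDatum S₀ Dd hO hw).ofRatAt v f hf) :
    sigmaG S₀ Dd hO hw g hgF hgO v y ^ n =
      (CompPack.ofDatum S₀ Dd hO hw).ofRatAt v (restrictEquiv F₀ g hgF f) hf' := by
  rw [← map_pow, hy]
  exact sigmaG_ofRatAt S₀ Dd hO hw g hgF hgO v f hf hf'

variable (hdeg : ∀ v (Q : Place k (Ft v)), Q.deg = 1) (Adm : Divisor K F → Prop)
  (adm_smooth : ∀ {E' : Divisor K F}, Adm E' → ∀ P ∈ E'.support, S₀.IsSmoothPlace P)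
  (N : ∀ e, NodePart (CompPack.ofDatum S₀ Dd hO hw) e)
  (DdP : ∀ x, DiscPart (CompPack.ofDatum S₀ Dd hO hw) Adm x)

/-- **The `TwistData` of an expansion package assembled over `CompPack.ofDatum S₀ Dd hO hw`**, for
a frame endomorphism whose component maps are `sigmaG … i₀`, `sigmaG … i₁`. -/
def twistDataG (i₀ i₁ : ι) {W : Type*} [CommRing W] {Rf B1f B2f : ν → Type*}
    [∀ e, CommRing (Rf e)] [∀ e, CommRing (B1f e)] [∀ e, CommRing (B2f e)] {n : ℕ}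
    {Fr : Glue.Frame W
      ((ExpPack.ofParts hdeg (CompPack.ofDatum S₀ Dd hO hw) Adm adm_smooth N DdP).Oh i₀)
      ((ExpPack.ofParts hdeg (CompPack.ofDatum S₀ Dd hO hw) Adm adm_smooth N DdP).Oh i₁)
      ν Rf B1f B2f n}
    (τ : Glue.FrameHom Fr)
    (hi : ∀ y, τ.σOi y = sigmaG S₀ Dd hO hw g hgF hgO i₀ y)
    (hz : ∀ y, τ.σOz y = sigmaG S₀ Dd hO hw g hgF hgO i₁ y) :
    StepB.TwistData (ExpPack.ofParts hdeg (CompPack.ofDatum S₀ Dd hO hw) Adm adm_smooth N DdP)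
      i₀ i₁ τ (restrictEquiv F₀ g hgF : F₀ →+* F₀) where
  σh := sigmaG S₀ Dd hO hw g hgF hgO
  σh_i₀ y := (hi y).symm
  σh_i₁ y := (hz y).symm
  σh_emb v h hh hh' := sigmaG_ofRatAt S₀ Dd hO hw g hgF hgO v h hh hh'

end Fermat.Agent.FF3.ExpPackComp
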