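import Mathlib
import Fermat.Agent.BR.Final.Partial
import Fermat.Agent.BR2.SetupOfData
import Fermat.Agent.FF3.ExpPackComp.TwistGen
import Fermat.Agent.FF3.ExpPackComp.Galois

/-!
# PROGRAMME I, node T4 (component side, helper21): the `TwistData` of an inertia element at a
Galois-stable level of the modular tower, for ANY component data over `Final.setupFinal` /
`SetupOfData.setup Dt`

`σ ∈ B.inertiaSubgroupIn ℚ`, `S` a `σ`-stable level (`InertiaLevels.GalStable q σ S`; from
helper14's `LevelDesc.GalStable S` by `galStable_of_levelDesc`), `g := galRing (M * q) σ`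
(`= gal (M * q) σ` as a ring automorphism), `Dd : Fin 2 → DVCompl.Datum (FKs (M * q) (KS q S))`
ANY component data with `hO`, `hw` as in `CompPack.ofDatum` (helper24's
`fun v => DiscInst.compDatum B hB hqM v S` with `hO := fun _ _ => Iff.rfl`, `hw := fun _ => rfl`,
i.e. helper16's `BLift.compPack`; or helper21's `ExpPackComp.datum`).

* `setupFinal_gal_mem_O_iff`, `setupFinal_res_gal` (and `setupDt_…`) : `g` stabilises the two
  valuation rings of the setup and acts trivially on the reductions;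
* `sigmaF`, `sigmaF_apply`, `sigmaF_ofRatAt`, `resh_sigmaF`, `lift_sigmaF`, `liftOf_sigmaF`,
  `twistDataF` : the specialisations of `TwistGen.lean` at `Final.setupFinal B hB hqM hne`;
* `sigmaDt`, …, `twistDataDt` : the same at `SetupOfData.setup Dt`.
-/

set_option autoImplicit false
set_option linter.unusedSectionVars false
set_option synthInstance.maxHeartbeats 400000

noncomputable section

namespace Fermat.Agent.FF3.ExpPackComp

open ModularCurve AlgebraicCurve IsLocalRing Fermat.Agent.X0 Fermat.Agent.Val Fermat.Agent.BR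
  Fermat.Agent.Red Fermat.Agent.BR.SS Fermat.Agent.BR.Inst.Levels Fermat.Agent.BR.Inst.FKCover
  Fermat.Agent.BR.S0 Fermat.Agent.BR.S0.RedModular Fermat.Agent.BR.S0.PointDict
  Fermat.Agent.BR.ValTwo Fermat.Agent.FF3.DVCompl Fermat.Agent.FF3.B4 Fermat.Agent.FF3
  Fermat.Agent.FF3.InertiaLevels

variable {M q : ℕ} [NeZero M] [hq : Fact q.Prime]
variable (B : ValuationSubring Kb) (hB : B.LiesOverPrime q) (hqM : ¬ q ∣ M) (S : Finset Kb)
variable {σ : Kb ≃ₐ[ℚ] Kb}

/-- inertia acts trivially on the reductions of the two components -/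
theorem compW_res_galRing (hσ : σ ∈ B.inertiaSubgroupIn ℚ) (v : Fin 2)
    (x : (compW B hB hqM v).O) :
    (compW B hB hqM v).res ⟨galRing (M * q) σ (x : Fb (M * q)),
        (galRing_mem_compW_iff B hB hqM hσ v _).2 x.2⟩ = (compW B hB hqM v).res x := by
  revert x
  refine Fin.cases ?_ (fun i => ?_) v
  · intro x
    exact compW_res_gal_smul₀ B hB hqM hσ x
  · have hi : i = 0 := Subsingleton.elim _ _
    subst hi
    intro x
    exact compW_res_gal_smul₁ B hB hqM hσ x

/-! ### `Final.setupFinal` -/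

section SetupFinal

variable (hne : Nonempty (Crossing (chartDataModular B hB hqM)))

theorem setupFinal_gal_mem_O_iff (hσ : σ ∈ B.inertiaSubgroupIn ℚ) (v : Fin 2)
    (y : Fb (M * q)) :
    galRing (M * q) σ y ∈ (Final.setupFinal B hB hqM hne).O v ↔
      y ∈ (Final.setupFinal B hB hqM hne).O v :=
  galRing_mem_compW_iff B hB hqM hσ v y

theorem setupFinal_res_gal (hσ : σ ∈ B.inertiaSubgroupIn ℚ) (v : Fin 2)
    (x : (Final.setupFinal B hB hqM hne).O v) :
    (Final.setupFinal B hB hqM hne).res v ⟨galRing (M * q) σ (x : Fb (M * q)),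
        (setupFinal_gal_mem_O_iff B hB hqM hne hσ v _).2 x.2⟩ =
      (Final.setupFinal B hB hqM hne).res v x :=
  compW_res_galRing B hB hqM hσ v x

variable {ϖ : FKs (M * q) (KS q S)} (Dd : Fin 2 → Datum (FKs (M * q) (KS q S)))
  (hO : ∀ v (x : FKs (M * q) (KS q S)),
    x ∈ (Dd v).O₀ ↔ (x : Fb (M * q)) ∈ (Final.setupFinal B hB hqM hne).O v)
  (hw : ∀ v, (Dd v).w = ϖ)
  (hσ : σ ∈ B.inertiaSubgroupIn ℚ) (hS : GalStable q σ S)

/-- **the action of the inertia element `σ` on the completed component rings** (`σh`; `σOi`,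
`σOz`), any component data over `Final.setupFinal` -/
def sigmaF (v : Fin 2) :
    (CompPack.ofDatum (Final.setupFinal B hB hqM hne) Dd hO hw).Oh v →+*
      (CompPack.ofDatum (Final.setupFinal B hB hqM hne) Dd hO hw).Oh v :=
  sigmaG (Final.setupFinal B hB hqM hne) Dd hO hw (galRing (M * q) σ)
    (galRing_mem_FKs_iff (M * q) hS) (setupFinal_gal_mem_O_iff B hB hqM hne hσ) v

theorem sigmaF_apply (v : Fin 2) (y : (Dd v).Oh) :
    sigmaF B hB hqM S hne Dd hO hw hσ hS v y =
      autO (Dd v) ((Final.setupFinal B hB hqM hne).O v) (hO v) (galRing (M * q) σ)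
        (galRing_mem_FKs_iff (M * q) hS) (setupFinal_gal_mem_O_iff B hB hqM hne hσ v) y := rfl

theorem sigmaF_ofRatAt (v : Fin 2) (h : FKs (M * q) (KS q S))
    (hh : (h : Fb (M * q)) ∈ (Final.setupFinal B hB hqM hne).O v)
    (hh' : ((galFHom (M := M) S hS h : FKs (M * q) (KS q S)) : Fb (M * q)) ∈
      (Final.setupFinal B hB hqM hne).O v) :
    sigmaF B hB hqM S hne Dd hO hw hσ hS v
        ((CompPack.ofDatum (Final.setupFinal B hB hqM hne) Dd hO hw).ofRatAt v h hh) =
      (CompPack.ofDatum (Final.setupFinal B hB hqM hne) Dd hO hw).ofRatAt v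
        (galFHom (M := M) S hS h) hh' :=
  sigmaG_ofRatAt (Final.setupFinal B hB hqM hne) Dd hO hw (galRing (M * q) σ)
    (galRing_mem_FKs_iff (M * q) hS) (setupFinal_gal_mem_O_iff B hB hqM hne hσ) v h hh hh'

theorem resh_sigmaF (v : Fin 2)
    (y : (CompPack.ofDatum (Final.setupFinal B hB hqM hne) Dd hO hw).Oh v) :
    (CompPack.ofDatum (Final.setupFinal B hB hqM hne) Dd hO hw).resh v
        (sigmaF B hB hqM S hne Dd hO hw hσ hS v y) =
      (CompPack.ofDatum (Final.setupFinal B hB hqM hne) Dd hO hw).resh v y :=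
  resh_sigmaG (Final.setupFinal B hB hqM hne) Dd hO hw (galRing (M * q) σ)
    (galRing_mem_FKs_iff (M * q) hS) (setupFinal_gal_mem_O_iff B hB hqM hne hσ)
    (setupFinal_res_gal B hB hqM hne hσ) v y

/-- the squares `hb1`, `hb2` of `Glue.NodeHom` for `b_i = (Dd v).liftOf J φ` -/
theorem liftOf_sigmaF (v : Fin 2) {R : Type*} [CommRing R] (J : Ideal R)
    (φ : (Dd v).O₀ →+* R) (hJ : φ (Dd v).w₀ ∈ J) (hR : IsAdicComplete J R) (σR : R →+* R)
    (hφ : ∀ x : (Dd v).O₀, σR (φ x) =
      φ (restrictO (Dd v) ((Final.setupFinal B hB hqM hne).O v) (hO v) (galRing (M * q) σ)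
        (galRing_mem_FKs_iff (M * q) hS) (setupFinal_gal_mem_O_iff B hB hqM hne hσ v) x))
    (y : (Dd v).Oh) :
    σR ((Dd v).liftOf J φ hJ hR y) =
      (Dd v).liftOf J φ hJ hR (sigmaF B hB hqM S hne Dd hO hw hσ hS v y) :=
  liftOf_sigmaG (Final.setupFinal B hB hqM hne) Dd hO hw (galRing (M * q) σ)
    (galRing_mem_FKs_iff (M * q) hS) (setupFinal_gal_mem_O_iff B hB hqM hne hσ) v J φ hJ hR σR
    hφ y

theorem lift_sigmaF (v : Fin 2) {R : Type*} [CommRing R] (φ : (Dd v).O₀ →+* R)
    (hR : IsAdicComplete (Ideal.span {φ (Dd v).w₀}) R) (σR : R →+* R)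
    (hφ : ∀ x : (Dd v).O₀, σR (φ x) =
      φ (restrictO (Dd v) ((Final.setupFinal B hB hqM hne).O v) (hO v) (galRing (M * q) σ)
        (galRing_mem_FKs_iff (M * q) hS) (setupFinal_gal_mem_O_iff B hB hqM hne hσ v) x))
    (y : (Dd v).Oh) :
    σR ((Dd v).lift φ hR y) = (Dd v).lift φ hR (sigmaF B hB hqM S hne Dd hO hw hσ hS v y) :=
  lift_sigmaG (Final.setupFinal B hB hqM hne) Dd hO hw (galRing (M * q) σ)
    (galRing_mem_FKs_iff (M * q) hS) (setupFinal_gal_mem_O_iff B hB hqM hne hσ) v φ hR σR hφ y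

variable (hdeg : ∀ (v : Fin 2) (Q : Place (ResidueField B)
    (modularFunctionFieldFullC (ResidueField B) M)), Q.deg = 1)
  (Adm : Divisor Kb (Fb (M * q)) → Prop)
  (adm_smooth : ∀ {E' : Divisor Kb (Fb (M * q))}, Adm E' →
    ∀ P ∈ E'.support, (Final.setupFinal B hB hqM hne).IsSmoothPlace P)
  (N : ∀ e, NodePart (CompPack.ofDatum (Final.setupFinal B hB hqM hne) Dd hO hw) e)
  (DdP : ∀ x, DiscPart (CompPack.ofDatum (Final.setupFinal B hB hqM hne) Dd hO hw) Adm x)

/-- **The `TwistData` of `StepB.InertiaPack` over `Final.setupFinal`**, any component data. -/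
def twistDataF {W : Type*} [CommRing W]
    {Rf B1f B2f : Crossing (chartDataModular B hB hqM) → Type*}
    [∀ e, CommRing (Rf e)] [∀ e, CommRing (B1f e)] [∀ e, CommRing (B2f e)] {n : ℕ}
    {Fr : Glue.Frame W
      ((ExpPack.ofParts hdeg (CompPack.ofDatum (Final.setupFinal B hB hqM hne) Dd hO hw) Adm
        adm_smooth N DdP).Oh 0)
      ((ExpPack.ofParts hdeg (CompPack.ofDatum (Final.setupFinal B hB hqM hne) Dd hO hw) Adm
        adm_smooth N DdP).Oh 1)
      (Crossing (chartDataModular B hB hqM)) Rf B1f B2f n}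
    (τ : Glue.FrameHom Fr)
    (hi : ∀ y, τ.σOi y = sigmaF B hB hqM S hne Dd hO hw hσ hS 0 y)
    (hz : ∀ y, τ.σOz y = sigmaF B hB hqM S hne Dd hO hw hσ hS 1 y) :
    StepB.TwistData
      (ExpPack.ofParts hdeg (CompPack.ofDatum (Final.setupFinal B hB hqM hne) Dd hO hw) Adm
        adm_smooth N DdP) 0 1 τ (galFHom (M := M) S hS) :=
  twistDataG (Final.setupFinal B hB hqM hne) Dd hO hw (galRing (M * q) σ)
    (galRing_mem_FKs_iff (M * q) hS) (setupFinal_gal_mem_O_iff B hB hqM hne hσ) hdeg Adm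
    adm_smooth N DdP 0 1 τ hi hz

end SetupFinal

end Fermat.Agent.FF3.ExpPackComp
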