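import Fermat.Agent.FF3.StepB.Defs
import Fermat.Agent.FF3.B4.Parts
import Fermat.Agent.FF3.ExpPackComp.Galois

/-!
# PROGRAMME I, node T4 (component side, helper21): the `TwistData` of helper22's `StepB/Twist.lean`
for an expansion package whose component part is `compPack`

* `galStable_of_levelDesc` : helper14's `LevelDesc.GalStable Sl` (all `σ`) gives helper29's per-`σ`
  notion `InertiaLevels.GalStable q σ Sl`;
* (`galFHom S hS : levelField →+* levelField`, `coe_galFHom` = the field `hg` of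
  `StepB.InertiaPack`, are in `Galois.lean`);
* `compPack_galO_ofRatAt` : `galO (ofRatAt v h _) = ofRatAt v (g h) _` (the field `σh_emb`);
* `twistDataOfParts` : `StepB.TwistData (ExpPack.ofParts hdeg (compPack …) Adm _ N Dd) 0 1 σ g`
  from a frame endomorphism `σ` with `σ.σOi = galO … 0`, `σ.σOz = galO … 1`;
* `compPackDt`, `twistDataOfPartsDt` : the same for main's `setup Dt` and helper22's
  `levelField`, `levelUnif`, `hdegOf`.
-/

set_option autoImplicit false
set_option linter.unusedSectionVars false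
set_option synthInstance.maxHeartbeats 400000

noncomputable section

namespace Fermat.Agent.FF3.ExpPackComp

open ModularCurve AlgebraicCurve IsLocalRing Fermat.Agent.X0 Fermat.Agent.Val Fermat.Agent.BR
  Fermat.Agent.Red Fermat.Agent.BR.SS
  Fermat.Agent.BR.TwoVal Fermat.Agent.BR.TwoValInst Fermat.Agent.BR.Inst.Levels
  Fermat.Agent.BR.Inst.FKCover Fermat.Agent.BR.S0 Fermat.Agent.BR.S0.RedModular
  Fermat.Agent.BR.ValTwo Fermat.Agent.FF3.DVCompl Fermat.Agent.FF3.B4
  Fermat.Agent.FF3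

variable {M q : ℕ} [NeZero M] [hq : Fact q.Prime]
variable (B : ValuationSubring Kb) (hB : B.LiesOverPrime q) (hqM : ¬ q ∣ M) (S : Finset Kb)
variable {σ : Kb ≃ₐ[ℚ] Kb}

/-- helper14's Galois-stable levels are stable under every `σ` in helper29's sense. -/
theorem galStable_of_levelDesc {S : Finset Kb} (hS : LevelDesc.GalStable S) (q : ℕ)
    (σ : Kb ≃ₐ[ℚ] Kb) : InertiaLevels.GalStable q σ S :=
  fun _ => hS.map_mem_KS q σ

variable (hσ : σ ∈ B.inertiaSubgroupIn ℚ) (hS : InertiaLevels.GalStable q σ S)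

section Pack

variable {ν : Type*}
  (I : TwoCompInput (F := Fb (M * q)) B (residue B)
    (modularFunctionFieldFullC (ResidueField B) M) ν)
  (hC : I.C = compW B hB hqM)

/-- **`σh_emb`**: the action on the completions is compatible with the action on the level
field. -/
theorem compPack_galO_ofRatAt (v : Fin 2) (h : FKs (M * q) (KS q S))
    (hO : (h : Fb (M * q)) ∈ I.toSetup.O v)
    (hO' : ((galFHom (M := M) S hS h : FKs (M * q) (KS q S)) : Fb (M * q)) ∈ I.toSetup.O v) :
    ((galO B hB hqM S hσ hS v ((compPack B hB hqM I hC S).ofRatAt v h hO) :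
        (datum B hB hqM S v).Oh) : (compPack B hB hqM I hC S).Oh v) =
      (compPack B hB hqM I hC S).ofRatAt v (galFHom (M := M) S hS h) hO' :=
  galO_mk_emb B hB hqM S hσ hS v h _

/-- the family `σh` of `StepB.TwistData` -/
def sigmaH (v : Fin 2) :
    (compPack B hB hqM I hC S).Oh v →+* (compPack B hB hqM I hC S).Oh v :=
  (galO B hB hqM S hσ hS v : (datum B hB hqM S v).Oh →+* (datum B hB hqM S v).Oh)

theorem sigmaH_apply (v : Fin 2) (y : (datum B hB hqM S v).Oh) :
    sigmaH B hB hqM S hσ hS I hC v y = galO B hB hqM S hσ hS v y := rfl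

/-- the residues are fixed -/
theorem resh_sigmaH (v : Fin 2) (y : (compPack B hB hqM I hC S).Oh v) :
    (compPack B hB hqM I hC S).resh v (sigmaH B hB hqM S hσ hS I hC v y) =
      (compPack B hB hqM I hC S).resh v y :=
  compPack_resh_galO B hB hqM S hσ hS I hC v y

variable (hdeg : ∀ (v : Fin 2) (Q : Place (ResidueField B)
    (modularFunctionFieldFullC (ResidueField B) M)), Q.deg = 1)
  (Adm : Divisor Kb (Fb (M * q)) → Prop)
  (adm_smooth : ∀ {E' : Divisor Kb (Fb (M * q))}, Adm E' →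
    ∀ P ∈ E'.support, I.toSetup.IsSmoothPlace P)
  (N : ∀ e, NodePart (compPack B hB hqM I hC S) e)
  (Dd : ∀ x, DiscPart (compPack B hB hqM I hC S) Adm x)

/-- **The `TwistData` of an expansion package assembled over `compPack`**, for a frame
endomorphism whose component maps are `galO … 0`, `galO … 1`. -/
def twistDataOfParts {W : Type*} [CommRing W] {Rf B1f B2f : ν → Type*} [∀ e, CommRing (Rf e)]
    [∀ e, CommRing (B1f e)] [∀ e, CommRing (B2f e)] {n : ℕ}
    {Fr : Glue.Frame W
      ((ExpPack.ofParts hdeg (compPack B hB hqM I hC S) Adm adm_smooth N Dd).Oh 0)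
      ((ExpPack.ofParts hdeg (compPack B hB hqM I hC S) Adm adm_smooth N Dd).Oh 1) ν Rf B1f B2f n}
    (τ : Glue.FrameHom Fr)
    (hi : ∀ y, τ.σOi y = sigmaH B hB hqM S hσ hS I hC 0 y)
    (hz : ∀ y, τ.σOz y = sigmaH B hB hqM S hσ hS I hC 1 y) :
    StepB.TwistData (ExpPack.ofParts hdeg (compPack B hB hqM I hC S) Adm adm_smooth N Dd) 0 1 τ
      (galFHom (M := M) S hS) where
  σh := sigmaH B hB hqM S hσ hS I hC
  σh_i₀ y := (hi y).symm
  σh_i₁ y := (hz y).symm
  σh_emb v h hO hO' := compPack_galO_ofRatAt B hB hqM S hσ hS I hC v h hO hO'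

end Pack

/-! ### main's `setup Dt` and helper22's `levelField`, `levelUnif`, `hdegOf` -/

section Dt

open Fermat.Agent.BR.Final Fermat.Agent.BR2.SetupOfData Fermat.Agent.FF3.StepB

variable {M q : ℕ} [NeZero M] [hq : Fact q.Prime]
variable {B : ValuationSubring Kb} {hB : B.LiesOverPrime q} {hqM : ¬ q ∣ M}
variable [IsAlgClosed (ResidueField B)]
variable (Dt : ModularData M q B hB hqM) (Sl : Finset Kb) {σ : Kb ≃ₐ[ℚ] Kb}

/-- **the component part of the expansion package of `setup Dt` at the level `Sl`**, in the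
literals of `StepB.LevelPack` -/
def compPackDt : CompPack (setup Dt) (levelField M q Sl) (levelUnif M hB Sl) :=
  compPack B hB hqM (input Dt) rfl Sl

theorem compPackDt_Oh (v : Fin 2) : (compPackDt Dt Sl).Oh v = (datum B hB hqM Sl v).Oh := rfl

variable (hσ : σ ∈ B.inertiaSubgroupIn ℚ) (hS : LevelDesc.GalStable Sl)

/-- the action of an inertia element on the level field (`g` of `StepB.InertiaPack`) -/
def galFHomDt : levelField M q Sl →+* levelField M q Sl :=
  galFHom (M := M) Sl (galStable_of_levelDesc hS q σ)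

@[simp] theorem coe_galFHomDt (h : levelField M q Sl) :
    ((galFHomDt (M := M) (σ := σ) Sl hS h : levelField M q Sl) : Fb (M * q)) =
      gal (M * q) σ • (h : Fb (M * q)) := rfl

/-- the family `σh` of `StepB.TwistData` -/
def sigmaHDt (v : Fin 2) : (compPackDt Dt Sl).Oh v →+* (compPackDt Dt Sl).Oh v :=
  sigmaH B hB hqM Sl hσ (galStable_of_levelDesc hS q σ) (input Dt) rfl v

theorem resh_sigmaHDt (v : Fin 2) (y : (compPackDt Dt Sl).Oh v) :
    (compPackDt Dt Sl).resh v (sigmaHDt Dt Sl hσ hS v y) = (compPackDt Dt Sl).resh v y :=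
  resh_sigmaH B hB hqM Sl hσ (galStable_of_levelDesc hS q σ) (input Dt) rfl v y

theorem sigmaHDt_ofRatAt (v : Fin 2) (h : levelField M q Sl)
    (hO : (h : Fb (M * q)) ∈ (setup Dt).O v)
    (hO' : ((galFHomDt (M := M) (σ := σ) Sl hS h : levelField M q Sl) : Fb (M * q)) ∈
      (setup Dt).O v) :
    sigmaHDt Dt Sl hσ hS v ((compPackDt Dt Sl).ofRatAt v h hO) =
      (compPackDt Dt Sl).ofRatAt v (galFHomDt (M := M) (σ := σ) Sl hS h) hO' :=
  compPack_galO_ofRatAt B hB hqM Sl hσ (galStable_of_levelDesc hS q σ) (input Dt) rfl v h hO hO'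

variable (Adm : Divisor Kb (Fb (M * q)) → Prop)
  (adm_smooth : ∀ {E' : Divisor Kb (Fb (M * q))}, Adm E' →
    ∀ P ∈ E'.support, (setup Dt).IsSmoothPlace P)
  (N : ∀ e, NodePart (compPackDt Dt Sl) e)
  (Dd : ∀ x, DiscPart (compPackDt Dt Sl) Adm x)

/-- **The `TwistData` of `StepB.InertiaPack`** for the expansion package
`ExpPack.ofParts (hdegOf Dt) (compPackDt Dt Sl) Adm _ N Dd`. -/
def twistDataOfPartsDt {W : Type*} [CommRing W]
    {Rf B1f B2f : S0.PointDict.Crossing (chartDataModular B hB hqM) → Type*}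
    [∀ e, CommRing (Rf e)] [∀ e, CommRing (B1f e)] [∀ e, CommRing (B2f e)] {n : ℕ}
    {Fr : Glue.Frame W
      ((ExpPack.ofParts (hdegOf Dt) (compPackDt Dt Sl) Adm adm_smooth N Dd).Oh 0)
      ((ExpPack.ofParts (hdegOf Dt) (compPackDt Dt Sl) Adm adm_smooth N Dd).Oh 1)
      (S0.PointDict.Crossing (chartDataModular B hB hqM)) Rf B1f B2f n}
    (τ : Glue.FrameHom Fr)
    (hi : ∀ y, τ.σOi y = sigmaHDt Dt Sl hσ hS 0 y)
    (hz : ∀ y, τ.σOz y = sigmaHDt Dt Sl hσ hS 1 y) :
    StepB.TwistData (ExpPack.ofParts (hdegOf Dt) (compPackDt Dt Sl) Adm adm_smooth N Dd) 0 1 τ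
      (galFHomDt (M := M) (σ := σ) Sl hS) where
  σh := sigmaHDt Dt Sl hσ hS
  σh_i₀ y := (hi y).symm
  σh_i₁ y := (hz y).symm
  σh_emb v h hO hO' := sigmaHDt_ofRatAt Dt Sl hσ hS v h hO hO'

end Dt

end Fermat.Agent.FF3.ExpPackComp
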